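import Fermat.Agent.LocalPts.Lutz
import Fermat.Agent.LocalTorsion.LutzMattuck

/-!
# Deep points near a point over `ℚ_p`

For any Weierstrass equation over `ℚ_p` the deep subgroups have finite index, a point of infinite
order in one of them fills such a subgroup up to every depth, adding a deep point moves an affine
point little, and points near an affine point differ from it by a deep point.
-/

set_option autoImplicit false
set_option linter.unusedSectionVars false

noncomputable section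

open Filter Topology WeierstrassCurve FA.EC FA.Local FA.Frob FA.LocalPts
open scoped Classical

namespace FA.RationalClosure

variable {p : ℕ} [hp : Fact p.Prime]

section Integral

variable {W : WeierstrassCurve ℚ_[p]} [W.IsElliptic]
  (hI : IntCoeff (NormedField.valuation (K := ℚ_[p])) W.toAffine)

/-- A point of infinite order in the first level fills some level up to every depth. -/
theorem exists_fill {g : W.toAffine.Point} (hg : g ≠ 0) (h : g ∈ lev hI 1) :
    ∃ n, 1 ≤ n ∧ g ∈ lev hI n ∧ ∀ k : ℕ, ∀ Q ∈ lev hI n, ∃ j : ℤ, ∀ i : ℤ,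
      Q - (j + i * (p : ℤ) ^ k) • g ∈ lev hI (n + k) := by
  have hex : ∃ m, g ∉ lev hI m :=
    not_forall.1 fun hall => hg (eq_zero_of_forall_lev hI hall)
  have hm : 1 < Nat.find hex := by
    by_contra hle
    exact Nat.find_spec hex (lev_antitone hI (not_lt.1 hle) h)
  obtain ⟨n, hn⟩ : ∃ n, Nat.find hex = n + 1 := ⟨Nat.find hex - 1, by omega⟩
  have h1 : g ∈ lev hI n := not_not.1 (Nat.find_min hex (by omega))
  have h2 : g ∉ lev hI (n + 1) := hn ▸ Nat.find_spec hex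
  have hn1 : 1 ≤ n := by omega
  refine ⟨n, hn1, h1, fun k Q hQ => ?_⟩
  suffices hj : ∃ j : ℤ, Q - j • g ∈ lev hI (n + k) by
    obtain ⟨j, hj⟩ := hj
    refine ⟨j, fun i => ?_⟩
    rw [add_zsmul, ← sub_sub]
    refine sub_mem hj ?_
    rw [mul_zsmul, ← Nat.cast_pow, natCast_zsmul]
    exact zsmul_mem (exact_pow_nsmul hI hn1 h1 h2 k).1 i
  induction k with
  | zero => exact ⟨0, by simpa using hQ⟩
  | succ k ih =>
    obtain ⟨j, hj⟩ := ih
    obtain ⟨hk1, hk2⟩ := exact_pow_nsmul hI hn1 h1 h2 k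
    obtain ⟨i, hi⟩ := exists_layer hI (by omega) hk1 hk2 hj
    refine ⟨j + i * (p : ℤ) ^ k, ?_⟩
    rw [← Nat.cast_pow, add_zsmul, mul_zsmul, natCast_zsmul, ← sub_sub, ← add_assoc]
    exact hi

/-- Adding a deep point moves an affine point little. -/
theorem exists_near_lev {x₀ y₀ : ℚ_[p]} (h₀ : W.toAffine.Nonsingular x₀ y₀) {ε : ℝ}
    (hε : 0 < ε) :
    ∃ N, ∀ R ∈ lev hI N, ∃ x y h, Affine.Point.some x₀ y₀ h₀ + R = Affine.Point.some x y h ∧
      ‖x - x₀‖ < ε ∧ ‖y - y₀‖ < ε := by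
  by_contra hcon
  push Not at hcon
  choose R hR hbad using hcon
  set P₀ := Affine.Point.some x₀ y₀ h₀ with hP₀
  obtain ⟨n₀, hn₀⟩ : ∃ n, P₀ ∉ lev hI n :=
    not_forall.1 fun hall => Affine.Point.some_ne_zero h₀ (eq_zero_of_forall_lev hI hall)
  have hout : ∀ k, P₀ + R (k + n₀) ∉ lev hI n₀ := fun k hk => hn₀ (by
    simpa using sub_mem hk (lev_antitone hI (by omega) (hR (k + n₀))))
  have hco : ∀ k, ∃ (q : ℚ_[p] × ℚ_[p]) (h : W.toAffine.Nonsingular q.1 q.2),
      P₀ + R (k + n₀) = Affine.Point.some q.1 q.2 h ∧ ‖q.1‖ ≤ (p : ℝ) ^ (2 * n₀) := by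
    intro k
    obtain ⟨x, y, h, e⟩ := exists_some_of_ne_zero
      (fun h0 => hout k (h0 ▸ zero_mem _) : P₀ + R (k + n₀) ≠ 0)
    have := hout k
    rw [e, some_mem_lev, not_lt] at this
    exact ⟨(x, y), h, e, this⟩
  choose q hq heq hle using hco
  have h1 : (1 : ℝ) ≤ (p : ℝ) ^ (2 * n₀) := one_le_pow₀ (Nat.one_le_cast.2 hp.out.one_le)
  set B := (p : ℝ) ^ (2 * n₀)
  have hS : IsCompact ({z : ℚ_[p] × ℚ_[p] | W.toAffine.Equation z.1 z.2} ∩
      (Metric.closedBall (0 : ℚ_[p]) B ×ˢ Metric.closedBall (0 : ℚ_[p]) (B ^ 2))) := by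
    refine ((isCompact_closedBall _ _).prod (isCompact_closedBall _ _)).inter_left ?_
    simp only [Affine.equation_iff]
    exact isClosed_eq (by fun_prop) (by fun_prop)
  obtain ⟨z, hz, φ, hφ, hlim⟩ := hS.tendsto_subseq (x := q) fun k =>
    ⟨(hq k).1, mem_closedBall_zero_iff.2 (hle k),
      mem_closedBall_zero_iff.2 (norm_snd_le hI (hq k).1 h1 (hle k))⟩
  have hz' : W.toAffine.Nonsingular z.1 z.2 := Affine.equation_iff_nonsingular.1 hz.1
  have hall : ∀ N, P₀ - Affine.Point.some z.1 z.2 hz' ∈ lev hI N := fun N => by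
    obtain ⟨k, hk, hkN⟩ := ((hlim.eventually (eventually_far (x₀ := z.1) (y₀ := z.2) hz'
      ((p : ℝ) ^ (2 * N) + 1))).and (eventually_ge_atTop N)).exists
    have hmem : Affine.Point.some _ _ (hq (φ k)) - Affine.Point.some z.1 z.2 hz' ∈ lev hI N :=
      (mem_lev hI).2 ((hk (hq (φ k))).imp_right fun h => (lt_add_one _).trans_le h)
    rw [← heq (φ k)] at hmem
    have hdeep : R (φ k + n₀) ∈ lev hI N :=
      lev_antitone hI ((hkN.trans (hφ.id_le k)).trans (Nat.le_add_right _ _)) (hR _)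
    have := sub_mem hmem hdeep
    rwa [show P₀ + R (φ k + n₀) - Affine.Point.some z.1 z.2 hz' - R (φ k + n₀) =
      P₀ - Affine.Point.some z.1 z.2 hz' by abel] at this
  have he := sub_eq_zero.1 (eq_zero_of_forall_lev hI hall)
  rw [hP₀, Affine.Point.some.injEq] at he
  obtain ⟨k, hk⟩ := ((Metric.tendsto_nhds.1 hlim) ε hε).exists
  rw [Prod.dist_eq, max_lt_iff, ← he.1, ← he.2, dist_eq_norm, dist_eq_norm] at hk
  exact absurd hk.2 (not_lt.2 (hbad (φ k + n₀) _ _ (hq (φ k)) (heq (φ k)) hk.1))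

end Integral

variable (W : WeierstrassCurve ℚ_[p])

/-- A change of variables to integral coefficients. -/
def model : VariableChange ℚ_[p] := (FA.LocalTorsion.exists_intCoeff p W).choose

theorem intCoeff_model :
    IntCoeff (NormedField.valuation (K := ℚ_[p])) (model W • W).toAffine :=
  (FA.LocalTorsion.exists_intCoeff p W).choose_spec

variable [W.IsElliptic]

/-- The deep subgroups of the points of an arbitrary equation over `ℚ_p`. -/
def filt (n : ℕ) : AddSubgroup W.toAffine.Point :=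
  (lev (intCoeff_model W) n).map (vcEquiv (model W) rfl).toAddMonoidHom

theorem mem_filt {n : ℕ} {P : W.toAffine.Point} :
    P ∈ filt W n ↔ (vcEquiv (model W) rfl).symm P ∈ lev (intCoeff_model W) n :=
  AddSubgroup.mem_map_equiv

theorem filt_antitone {m n : ℕ} (h : m ≤ n) : filt W n ≤ filt W m :=
  AddSubgroup.map_mono (lev_antitone _ h)

theorem filt_index_ne_zero (n : ℕ) : (filt W n).index ≠ 0 := by
  rw [show (filt W n).index = (lev (intCoeff_model W) n).index from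
    AddSubgroup.index_map_equiv _ (vcEquiv (model W) rfl)]
  exact lev_index_ne_zero _ n

/-- A point of infinite order in the first subgroup fills one of them up to every depth. -/
theorem exists_fill_filt {g : W.toAffine.Point} (hg : g ≠ 0) (h : g ∈ filt W 1) :
    ∃ n, 1 ≤ n ∧ g ∈ filt W n ∧ ∀ k : ℕ, ∀ Q ∈ filt W n, ∃ j : ℤ, ∀ i : ℤ,
      Q - (j + i * (p : ℤ) ^ k) • g ∈ filt W (n + k) := by
  set e := vcEquiv (model W) (rfl : model W • W = _)
  obtain ⟨n, hn, h1, h2⟩ := exists_fill (intCoeff_model W) (g := e.symm g)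
    (fun h0 => hg ((map_eq_zero_iff _ e.symm.injective).1 h0)) ((mem_filt W).1 h)
  refine ⟨n, hn, (mem_filt W).2 h1, fun k Q hQ => ?_⟩
  obtain ⟨j, hj⟩ := h2 k _ ((mem_filt W).1 hQ)
  exact ⟨j, fun i => (mem_filt W).2 (by rw [map_sub, map_zsmul]; exact hj i)⟩

/-- Adding a deep point moves an affine point little. -/
theorem exists_add_near {x₀ y₀ : ℚ_[p]} (h₀ : W.toAffine.Nonsingular x₀ y₀) {ε : ℝ}
    (hε : 0 < ε) :
    ∃ N, ∀ R ∈ filt W N, ∃ x y h, Affine.Point.some x₀ y₀ h₀ + R = Affine.Point.some x y h ∧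
      ‖x - x₀‖ < ε ∧ ‖y - y₀‖ < ε := by
  set C := model W
  set e := vcEquiv C (rfl : C • W = _)
  obtain ⟨a, b, h, hab⟩ := exists_some_of_ne_zero
    (fun h0 => Affine.Point.some_ne_zero h₀ ((map_eq_zero_iff _ e.symm.injective).1 h0) :
      e.symm (Affine.Point.some x₀ y₀ h₀) ≠ 0)
  have hab' := congrArg e hab
  rw [e.apply_symm_apply, vcEquiv_some, Affine.Point.some.injEq] at hab'
  have hc : Continuous fun q : ℚ_[p] × ℚ_[p] => (vcX C q.1, vcY C q.1 q.2) := by
    unfold vcX vcY; fun_prop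
  obtain ⟨δ, hδ, hball⟩ := Metric.continuousAt_iff.1 (hc.continuousAt (x := (a, b))) ε hε
  obtain ⟨N, hN⟩ := exists_near_lev (intCoeff_model W) h hδ
  refine ⟨N, fun R hR => ?_⟩
  obtain ⟨x, y, hxy, he, hx, hy⟩ := hN _ ((mem_filt W).1 hR)
  rw [← hab, ← map_add, AddEquiv.symm_apply_eq] at he
  refine ⟨_, _, _, he.trans (vcEquiv_some C rfl hxy), ?_⟩
  have := @hball (x, y) (by
    rw [Prod.dist_eq, dist_eq_norm, dist_eq_norm]; exact max_lt hx hy)
  rw [Prod.dist_eq, max_lt_iff, dist_eq_norm, dist_eq_norm, ← hab'.1, ← hab'.2] at this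
  exact this

/-- A large abscissa puts a point deep. -/
theorem exists_mem_of_far (N : ℕ) :
    ∃ C : ℝ, ∀ P : W.toAffine.Point, Far C P → P ∈ filt W N := by
  set D := model W
  set e := vcEquiv D (rfl : D • W = _)
  refine ⟨‖(D.u : ℚ_[p]) ^ 2‖ * (p : ℝ) ^ (2 * N) + ‖D.r‖ + 1, fun P hP => (mem_filt W).2 ?_⟩
  rcases hP with rfl | hP
  · rw [map_zero]; exact zero_mem _
  rcases eq_or_ne (e.symm P) 0 with h0 | h0
  · rw [h0]; exact zero_mem _
  obtain ⟨a, b, h, hab⟩ := exists_some_of_ne_zero h0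
  rw [hab, some_mem_lev]
  rw [← e.apply_symm_apply P, hab, vcEquiv_some, xc_some, vcX] at hP
  have h2 := (hP.trans (norm_add_le _ _)).trans_eq (by rw [norm_mul])
  by_contra hle
  nlinarith [norm_nonneg ((D.u : ℚ_[p]) ^ 2),
    mul_le_mul_of_nonneg_left (not_lt.1 hle) (norm_nonneg ((D.u : ℚ_[p]) ^ 2))]

/-- A deep point has a large abscissa. -/
theorem exists_far_of_mem (C : ℝ) :
    ∃ N, ∀ P ∈ filt W N, P = 0 ∨ C ≤ ‖xc P‖ := by
  set D := model W
  set e := vcEquiv D (rfl : D • W = _)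
  have hu : 0 < ‖(D.u : ℚ_[p]) ^ 2‖ := norm_pos_iff.2 (pow_ne_zero _ D.u.ne_zero)
  obtain ⟨N, hN⟩ := pow_unbounded_of_one_lt ((C + ‖D.r‖) / ‖(D.u : ℚ_[p]) ^ 2‖)
    (Nat.one_lt_cast.2 hp.out.one_lt : (1 : ℝ) < p)
  refine ⟨N, fun P hP => (eq_or_ne P 0).imp_right fun h0 => ?_⟩
  obtain ⟨a, b, h, hab⟩ := exists_some_of_ne_zero
    (fun h => h0 ((map_eq_zero_iff _ e.symm.injective).1 h) : e.symm P ≠ 0)
  rw [mem_filt, hab, some_mem_lev] at hP
  have ha : (C + ‖D.r‖) / ‖(D.u : ℚ_[p]) ^ 2‖ < ‖a‖ := (hN.trans_le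
    (pow_le_pow_right₀ (Nat.one_le_cast.2 hp.out.one_le) (by omega))).trans hP
  rw [div_lt_iff₀ hu] at ha
  rw [← e.apply_symm_apply P, hab, vcEquiv_some, xc_some, vcX]
  have h2 := norm_sub_le ((D.u : ℚ_[p]) ^ 2 * a + D.r) D.r
  rw [add_sub_cancel_right, norm_mul] at h2
  linarith

/-- Points near an affine point differ from it by a deep point. -/
theorem eventually_sub_mem {x₀ y₀ : ℚ_[p]} (h₀ : W.toAffine.Nonsingular x₀ y₀) (N : ℕ) :
    ∀ᶠ q : ℚ_[p] × ℚ_[p] in 𝓝 (x₀, y₀), ∀ h : W.toAffine.Nonsingular q.1 q.2,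
      Affine.Point.some q.1 q.2 h - Affine.Point.some x₀ y₀ h₀ ∈ filt W N := by
  obtain ⟨C, hC⟩ := exists_mem_of_far W N
  exact (eventually_far h₀ C).mono fun q hq h => hC _ (hq h)

end FA.RationalClosure
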