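import Fermat.Agent.RationalClosure.Local
import Mathlib.Data.Nat.ChineseRemainder

/-!
# Progressions of rational points converging at finitely many primes

Let `P` be a rational point of infinite order on an elliptic curve over `ℚ` and `S` a finite set of
primes. There are open subgroups of finite index `H p` of the points over `ℚ_p` such that every
family of points in one coset `R₀ + H p` with `R₀` rational is approximated by whole progressions
`R₀ + (c + t K) • P`.
-/

set_option autoImplicit false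
set_option linter.unusedSectionVars false

noncomputable section

open Filter Topology WeierstrassCurve FA.EC FA.LocalPts
open scoped WeierstrassCurve.Affine Classical

namespace FA.RationalClosure

variable (E : WeierstrassCurve ℚ)

/-- A rational point over `ℚ_p`. -/
def loc (p : ℕ) [Fact p.Prime] : E.toAffine.Point →+ (E.toAffine⁄ℚ_[p]).Point :=
  Affine.Point.map (W' := E.toAffine) (S := ℚ) (F := ℚ) (Algebra.ofId ℚ ℚ_[p])

theorem loc_some (p : ℕ) [Fact p.Prime] {a b : ℚ} (h : E.toAffine.Nonsingular a b) :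
    ∃ h', loc E p (.some a b h) = .some (a : ℚ_[p]) (b : ℚ_[p]) h' :=
  ⟨_, rfl⟩

theorem loc_injective (p : ℕ) [Fact p.Prime] : Function.Injective (loc E p) :=
  Affine.Point.map_injective (W' := E.toAffine) _

variable [E.IsElliptic] {ι : Type*} [Fintype ι] (p : ι → ℕ) [∀ i, Fact (p i).Prime]

/-- **Progressions near prescribed points.** -/
theorem exists_subgroups (hinj : Function.Injective p) {P : E.toAffine.Point}
    (hP : ¬ IsOfFinAddOrder P) :
    ∃ H : ∀ i, AddSubgroup (E.toAffine⁄ℚ_[p i]).Point, (∀ i, (H i).index ≠ 0) ∧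
      (∀ i, ∃ C : ℝ, ∀ R : (E.toAffine⁄ℚ_[p i]).Point, Far C R → R ∈ H i) ∧
      ∀ (R₀ : E.toAffine.Point) (Q : ∀ i, (E.toAffine⁄ℚ_[p i]).Point),
        (∀ i, Q i - loc E (p i) R₀ ∈ H i) → ∀ ε > 0, ∃ c K : ℤ, K ≠ 0 ∧ ∀ (t : ℤ) (i : ι),
          (∀ (x y : ℚ_[p i]) (h : (E.toAffine⁄ℚ_[p i]).Nonsingular x y),
            Q i = .some x y h → ∃ a b h', R₀ + (c + t * K) • P = .some a b h' ∧
              ‖(a : ℚ_[p i]) - x‖ < ε ∧ ‖(b : ℚ_[p i]) - y‖ < ε) ∧
          (Q i = 0 → Far ε⁻¹ (loc E (p i) (R₀ + (c + t * K) • P))) := by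
  -- a multiple of `P` in all the first subgroups
  let W : ∀ i, WeierstrassCurve ℚ_[p i] := fun i => E.baseChange ℚ_[p i]
  have : ∀ i, (W i).IsElliptic := fun i =>
    inferInstanceAs (E.map (algebraMap ℚ ℚ_[p i])).IsElliptic
  set M := ∏ i, (filt (W i) 1).index with hM
  have hM0 : M ≠ 0 := Finset.prod_ne_zero_iff.2 fun i _ => filt_index_ne_zero _ 1
  set g := M • P with hg
  have hg0 : g ≠ 0 := fun h0 =>
    hP (isOfFinAddOrder_iff_nsmul_eq_zero.2 ⟨M, Nat.pos_of_ne_zero hM0, h0⟩)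
  have hmem : ∀ i, loc E (p i) g ∈ filt (W i) 1 := fun i => by
    obtain ⟨r, hr⟩ := Finset.dvd_prod_of_mem (fun i => (filt (W i) 1).index) (Finset.mem_univ i)
    rw [hg, hM, hr, mul_comm, map_nsmul, mul_nsmul']
    exact nsmul_mem (AddSubgroup.nsmul_index_mem _ _) r
  choose n _ hgn hfill using fun i => exists_fill_filt (W i) (g := loc E (p i) g)
    (fun h0 => hg0 ((map_eq_zero_iff _ (loc_injective E _)).1 h0)) (hmem i)
  refine ⟨fun i => filt (W i) (n i), fun i => filt_index_ne_zero _ _,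
    fun i => exists_mem_of_far (W i) (n i), fun R₀ Q hQ ε hε => ?_⟩
  -- the depth needed at each prime
  have hdepth : ∀ i, ∃ N, ∀ R ∈ filt (W i) N,
      (∀ (x y : ℚ_[p i]) (h : (E.toAffine⁄ℚ_[p i]).Nonsingular x y),
        Q i = .some x y h → ∃ x' y' h', Q i + R = .some x' y' h' ∧
          ‖x' - x‖ < ε ∧ ‖y' - y‖ < ε) ∧
      (Q i = 0 → Far ε⁻¹ (Q i + R)) := by
    intro i
    rcases hQi : Q i with _ | ⟨x₀, y₀, h₀⟩
    · obtain ⟨N, hN⟩ := exists_far_of_mem (W i) ε⁻¹
      exact ⟨N, fun R hR => ⟨fun x y h e => absurd e.symm (Affine.Point.some_ne_zero h),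
        fun _ => show Far ε⁻¹ (0 + R) by rw [zero_add]; exact hN R hR⟩⟩
    obtain ⟨N, hN⟩ := exists_add_near (W i) (x₀ := x₀) (y₀ := y₀) h₀ hε
    refine ⟨N, fun R hR => ⟨fun x y h e => ?_, fun e => absurd e (Affine.Point.some_ne_zero h₀)⟩⟩
    rw [Affine.Point.some.injEq] at e
    obtain ⟨x', y', h', e', hx, hy⟩ := hN R hR
    exact ⟨x', y', h', e', e.1 ▸ hx, e.2 ▸ hy⟩
  choose N hN using hdepth
  set k := Finset.univ.sup N
  choose j hj using fun i => hfill i k _ (hQ i)
  -- one residue for all the primes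
  obtain ⟨c, hc⟩ : ∃ c : ℤ, ∀ i, ((p i : ℤ) ^ k) ∣ c - j i := by
    obtain ⟨c, hc⟩ := Nat.chineseRemainderOfFinset
      (fun i => (j i % ((p i : ℤ) ^ k)).toNat) (fun i => p i ^ k) Finset.univ
      (fun i _ => pow_ne_zero _ (Fact.out : (p i).Prime).ne_zero)
      (fun i _ i' _ hii' => Nat.Coprime.pow k k
        ((Nat.coprime_primes Fact.out Fact.out).2 (hinj.ne hii')))
    refine ⟨c, fun i => ?_⟩
    have h := Nat.modEq_iff_dvd.1 (hc i (Finset.mem_univ _)).symm
    rw [Int.toNat_of_nonneg (Int.emod_nonneg _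
      (pow_ne_zero _ (Int.natCast_ne_zero.2 (Fact.out : (p i).Prime).ne_zero))), Nat.cast_pow] at h
    rw [show (c : ℤ) - j i = ((c : ℤ) - j i % (p i : ℤ) ^ k) - (j i - j i % (p i : ℤ) ^ k) by ring]
    exact dvd_sub h ⟨j i / (p i : ℤ) ^ k, by
      linear_combination (-1 : ℤ) * Int.emod_add_mul_ediv (j i) ((p i : ℤ) ^ k)⟩
  refine ⟨c * M, (∏ i, (p i : ℤ) ^ k) * M, mul_ne_zero (Finset.prod_ne_zero_iff.2 fun i _ =>
    pow_ne_zero _ (Int.natCast_ne_zero.2 (Fact.out : (p i).Prime).ne_zero))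
    (Int.natCast_ne_zero.2 hM0), fun t i => ?_⟩
  set u : ℤ := c + t * ∏ i, (p i : ℤ) ^ k
  obtain ⟨m, hm⟩ : ((p i : ℤ) ^ k) ∣ u - j i := by
    rw [show u - j i = (c - j i) + t * ∏ i, (p i : ℤ) ^ k by simp [u]; ring]
    exact dvd_add (hc i) ((Finset.dvd_prod_of_mem _ (Finset.mem_univ i)).mul_left t)
  have hd : loc E (p i) (u • g) - (Q i - loc E (p i) R₀) ∈ filt (W i) (n i + k) := by
    rw [map_zsmul, show u = j i + m * (p i : ℤ) ^ k by linarith [hm], ← neg_sub, neg_mem_iff]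
    exact hj i m
  obtain ⟨hnear, hfar⟩ := hN i _ (filt_antitone (W i)
    ((Finset.le_sup (f := N) (Finset.mem_univ i)).trans (Nat.le_add_left k (n i))) hd)
  have heq : R₀ + (c * M + t * ((∏ i, (p i : ℤ) ^ k) * M)) • P = R₀ + u • g := by
    rw [hg, ← natCast_zsmul P M, ← mul_zsmul']
    congr 2; ring
  rw [show Q i + (loc E (p i) (u • g) - (Q i - loc E (p i) R₀)) =
    loc E (p i) (R₀ + u • g) by rw [map_add]; abel, ← heq] at hnear hfar
  refine ⟨fun x y h hQi => ?_, hfar⟩
  obtain ⟨x', y', h', e, hx, hy⟩ := hnear x y h hQi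
  generalize R₀ + (c * M + t * ((∏ i, (p i : ℤ) ^ k) * M)) • P = T at e ⊢
  rcases T with _ | ⟨a, b, hab⟩
  · exact absurd (e.symm.trans (map_zero _)) (Affine.Point.some_ne_zero _)
  obtain ⟨h'', e'⟩ := loc_some E (p i) hab
  rw [e', Affine.Point.some.injEq] at e
  exact ⟨a, b, hab, rfl, e.1 ▸ hx, e.2 ▸ hy⟩

/-- A progression through a point of infinite order has no repetition. -/
theorem progression_injective {F : Type*} [Field F] [DecidableEq F] {V : WeierstrassCurve F}
    {P R : V.toAffine.Point} (hP : ¬ IsOfFinAddOrder P) {c K : ℤ} (hK : K ≠ 0) :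
    Function.Injective fun t : ℤ => R + (c + t * K) • P := fun s t e => by
  simp only [add_right_inj] at e
  by_contra hne
  exact hP (isOfFinAddOrder_iff_zsmul_eq_zero.2
    ⟨(s - t) * K, mul_ne_zero (sub_ne_zero.2 hne) hK, by
      rw [show (s - t) * K = (c + s * K) - (c + t * K) by ring, sub_zsmul, e, add_neg_cancel]⟩)

/-- Infinitely many values of a progression give infinitely many coordinates. -/
theorem infinite_coords {F : Type*} [Field F] [DecidableEq F] {V : WeierstrassCurve F}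
    {P R : V.toAffine.Point} (hP : ¬ IsOfFinAddOrder P) {c K : ℤ} (hK : K ≠ 0) {S : Set ℤ}
    (hS : S.Infinite) {T : Set (F × F)}
    (h : ∀ t ∈ S, ∀ a b h', R + (c + t * K) • P = .some a b h' → (a, b) ∈ T) : T.Infinite := by
  set f := fun t : ℤ => R + (c + t * K) • P with hf
  have hinj : Function.Injective f := progression_injective hP hK
  intro hT
  refine hS ((((hT.image fun q : F × F => if h' : V.toAffine.Nonsingular q.1 q.2 then
    Affine.Point.some q.1 q.2 h' else 0).insert 0).preimage hinj.injOn).subset fun t ht => ?_)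
  rcases hQ : f t with _ | ⟨a, b, h'⟩ <;> rw [Set.mem_preimage, hQ]
  · exact Set.mem_insert _ _
  · exact Set.mem_insert_of_mem _ ⟨(a, b), h t ht a b h' hQ, dif_pos h'⟩

/-- The norm of a natural number is at least its inverse. -/
theorem inv_le_norm_natCast {l : ℕ} [Fact l.Prime] {m : ℕ} (hm : m ≠ 0) :
    (m : ℝ)⁻¹ ≤ ‖((m : ℚ) : ℚ_[l])‖ := by
  rw [Rat.cast_natCast, Padic.norm_eq_zpow_neg_valuation (Nat.cast_ne_zero.2 hm),
    Padic.valuation_natCast, zpow_neg, zpow_natCast]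
  exact inv_anti₀ (pow_pos (Nat.cast_pos.2 (Fact.out : l.Prime).pos) _)
    (by exact_mod_cast Nat.le_of_dvd (Nat.pos_of_ne_zero hm) pow_padicValNat_dvd)

end FA.RationalClosure
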