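import Fermat.Agent.RealPoints.Structure

/-!
# Translates of the multiples of a real point

On `y² = x³ + A x + B` over the reals, a translate of the multiples of a point of infinite order by
a point of the identity component is dense in that component, and the double of every point lies
there.
-/

set_option autoImplicit false
set_option linter.style.haveILetI false

noncomputable section

open Complex Filter Topology WeierstrassCurve FA.RealPoints
open scoped ComplexConjugate

namespace FA.RationalClosure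

variable {A B : ℝ} [(shortCurve A B).IsElliptic]

/-- The points of the identity component form a subgroup containing every double. -/
theorem exists_component : ∃ G : AddSubgroup (shortCurve A B).toAffine.Point,
    (∀ Q, Q ∈ G ↔ OnIdentityComponent Q) ∧ ∀ Q, 2 • Q ∈ G := by
  obtain ⟨φ, -, hφ, hout⟩ := exists_circleHom A B
  refine ⟨φ.range, hφ, fun Q => ?_⟩
  by_cases hQ : Q ∈ φ.range
  · exact nsmul_mem hQ 2
  obtain ⟨e, -, he, hdiff⟩ := hout Q hQ
  have h := nsmul_mem (hdiff Q hQ) 2
  rwa [nsmul_sub, he, sub_zero] at h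

/-- **Translates of the multiples are dense in the identity component.** -/
theorem dense_translate {P C : (shortCurve A B).toAffine.Point} (hP : ¬ IsOfFinAddOrder P)
    (hC : OnIdentityComponent C) {x y : ℝ} (hy : y ^ 2 = x ^ 3 + A * x + B)
    (hx : ∀ t > x, 0 < t ^ 3 + A * t + B) {ε : ℝ} (hε : 0 < ε) :
    {n : ℤ | ∃ x' y' h, C + n • P = .some x' y' h ∧ |x' - x| < ε ∧ |y' - y| < ε}.Infinite := by
  obtain ⟨L, ι, h₂, h₃, hιinj, hιsome⟩ := exists_lattice_hom A B
  obtain ⟨ω, hω, hper⟩ := exists_real_period L h₂ h₃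
  obtain ⟨z, hz⟩ := FA.ClassNumberOne.unif_surjective L (ι P)
  -- the doubled point and the translation have real parameters
  obtain ⟨t, ht⟩ : ∃ t : ℝ, FA.Mazur.Wp.unif L t = 2 • ι P := by
    refine ⟨2 * z.re, ?_⟩
    have hconj : FA.Mazur.Wp.unif L (conj z) = FA.Mazur.Wp.unif L z :=
      unif_conj_param h₂ h₃ hιsome hz
    have e : ((2 * z.re : ℝ) : ℂ) = z + conj z := (Complex.add_conj z).symm
    rw [e, FA.Mazur.Wp.unif_add, hconj, two_nsmul, ← hz]
  obtain ⟨c, hc⟩ : ∃ c : ℝ, FA.Mazur.Wp.unif L c = ι C := by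
    cases C with
    | zero =>
      exact ⟨0, (FA.Mazur.Wp.unif_of_mem L (by simp)).trans (map_zero ι).symm⟩
    | some a b h =>
      have he := (Affine.equation_iff a b).mp h.1
      simp only [zero_mul, add_zero] at he
      obtain ⟨s, hs, ha, hb⟩ := exists_real_param L h₂ h₃ hω hper (x := a) (y := 2 * b)
        (by linear_combination 4 * he) (fun u hu => by linarith [hC a b h rfl u hu])
      refine ⟨s, ?_⟩
      obtain ⟨h', e⟩ := hιsome a b h
      rw [e, FA.Mazur.Wp.unif_of_notMem L hs, Affine.Point.some.injEq]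
      exact ⟨ha, by rw [hb]; push_cast; ring⟩
  have hnsmul : ∀ n : ℤ, FA.Mazur.Wp.unif L ((n * t : ℝ) : ℂ) = ι ((2 * n) • P) := fun n => by
    rw [← FA.Mazur.Wp.unifHom_apply, ofReal_mul, ofReal_intCast, ← zsmul_eq_mul, map_zsmul,
      FA.Mazur.Wp.unifHom_apply, ht, map_zsmul, mul_comm, mul_zsmul]
    norm_num [two_zsmul, two_nsmul]
  -- the group generated by the parameter and the period is dense
  have hdense : Dense ((AddSubgroup.closure {t, ω} : AddSubgroup ℝ) : Set ℝ) := by
    refine (AddSubgroup.dense_or_cyclic _).resolve_right ?_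
    rintro ⟨d, hd⟩
    have hmem : ∀ v ∈ ({t, ω} : Set ℝ), ∃ k : ℤ, (k : ℝ) * d = v := fun v hv => by
      have h := AddSubgroup.subset_closure (G := ℝ) hv
      rw [hd] at h
      simpa [zsmul_eq_mul] using AddSubgroup.mem_closure_singleton.mp h
    obtain ⟨u, hu⟩ := hmem t (by simp)
    obtain ⟨v, hv⟩ := hmem ω (by simp)
    have hv0 : v ≠ 0 := by
      rintro rfl
      simp at hv
      exact hω.ne hv
    have h0 : FA.Mazur.Wp.unif L ((v * t : ℝ) : ℂ) = 0 :=
      FA.Mazur.Wp.unif_of_mem L ((hper _).mpr ⟨u, by rw [← hu, ← hv]; ring⟩)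
    rw [hnsmul, map_eq_zero_iff ι hιinj] at h0
    exact hP (isOfFinAddOrder_iff_zsmul_eq_zero.mpr ⟨2 * v, by omega, h0⟩)
  -- a real parameter of the target
  obtain ⟨s, hs, hsx, hsy⟩ := exists_real_param L h₂ h₃ hω hper (x := x) (y := 2 * y)
    (by linear_combination 4 * hy) (fun u hu => by have := hx u hu; linarith)
  have hev : ∀ᶠ u : ℝ in 𝓝 s, (u : ℂ) ∉ L.lattice ∧ |(L.weierstrassP u).re - x| < ε ∧
      |(L.derivWeierstrassP u).re / 2 - y| < ε := by
    have c0 := Complex.continuous_ofReal.continuousAt (x := s)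
    have c1 : ContinuousAt (fun u : ℝ => (L.weierstrassP u).re) s :=
      Complex.continuous_re.continuousAt.comp
        ((L.analyticOnNhd_weierstrassP _ hs).continuousAt.comp c0)
    have c2 : ContinuousAt (fun u : ℝ => (L.derivWeierstrassP u).re / 2) s :=
      (Complex.continuous_re.continuousAt.comp
        ((L.analyticOnNhd_derivWeierstrassP _ hs).continuousAt.comp c0)).div_const 2
    refine ((c0.eventually (L.isClosed_lattice.isOpen_compl.mem_nhds hs)).and
      ((Metric.tendsto_nhds.mp c1.tendsto ε hε).and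
        (Metric.tendsto_nhds.mp c2.tendsto ε hε))).mono fun u hu => ⟨hu.1, ?_, ?_⟩
    · simpa [Real.dist_eq, hsx] using hu.2.1
    · simpa [Real.dist_eq, hsy] using hu.2.2
  obtain ⟨δ, hδ, hball⟩ := Metric.eventually_nhds_iff.mp hev
  set r := min δ (ω / 2)
  have hr : 0 < r := lt_min hδ (by linarith)
  set N : Set ℤ := {n | ∃ m : ℤ, |n * t + m * ω - (s - c)| < r}
  have hN : N.Infinite := by
    intro hfin
    choose! m hm using fun (n : ℤ) (hn : n ∈ N) => hn
    have hsub : Metric.ball (s - c) r ∩ (AddSubgroup.closure {t, ω} : AddSubgroup ℝ) ⊆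
        (fun n : ℤ => (n : ℝ) * t + m n * ω) '' N := by
      rintro v ⟨hv, hv'⟩
      obtain ⟨n, k, rfl⟩ := AddSubgroup.mem_closure_pair.mp hv'
      simp only [Metric.mem_ball, Real.dist_eq, zsmul_eq_mul] at hv ⊢
      refine ⟨n, ⟨k, hv⟩, ?_⟩
      have h1 := abs_lt.mp hv
      have h2 := abs_lt.mp (hm n ⟨k, hv⟩)
      have h3 : ((m n - k : ℤ) : ℝ) * ω < 1 * ω ∧ -1 * ω < ((m n - k : ℤ) : ℝ) * ω := by
        push_cast
        constructor <;> linarith [min_le_right δ (ω / 2)]
      have h4 : m n - k < 1 := by exact_mod_cast lt_of_mul_lt_mul_right h3.1 hω.le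
      have h5 : -1 < m n - k := by exact_mod_cast lt_of_mul_lt_mul_right h3.2 hω.le
      show (n : ℝ) * t + m n * ω = n * t + k * ω
      rw [show m n = k by omega]
    have hcl := hdense.open_subset_closure_inter (Metric.isOpen_ball (x := s - c) (ε := r))
    rw [((hfin.image _).subset hsub).isClosed.closure_eq] at hcl
    exact ((Set.Ioo_infinite (show s - c - r < s - c + r by linarith)).mono
      (by rw [← Real.ball_eq_Ioo]; exact hcl)) ((hfin.image _).subset hsub)
  refine (hN.image (mul_right_injective₀ (two_ne_zero (α := ℤ))).injOn).mono ?_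
  rintro _ ⟨n, ⟨m, hm⟩, rfl⟩
  set u : ℝ := c + n * t + m * ω with hu'
  obtain ⟨hu, hux, huy⟩ := hball (y := u) (by
    rw [Real.dist_eq, show u - s = n * t + m * ω - (s - c) by rw [hu']; ring]
    exact hm.trans_le (min_le_left _ _))
  have hval : FA.Mazur.Wp.unif L u = ι (C + (2 * n) • P) := by
    rw [map_add, ← hnsmul, ← hc,
      show (u : ℂ) = ((c : ℝ) : ℂ) + ((n * t : ℝ) : ℂ) + ((m * ω : ℝ) : ℂ) by simp [u],
      FA.Mazur.Wp.unif_add_mem L ((hper _).mpr ⟨m, rfl⟩), FA.Mazur.Wp.unif_add]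
  rw [FA.Mazur.Wp.unif_of_notMem L hu] at hval
  show ∃ x' y' h, C + (2 * n) • P = .some x' y' h ∧ |x' - x| < ε ∧ |y' - y| < ε
  generalize C + (2 * n) • P = Q at hval
  rcases Q with _ | ⟨x', y', h⟩
  · exact absurd (hval.trans ι.map_zero) (Affine.Point.some_ne_zero _)
  obtain ⟨h', e⟩ := hιsome x' y' h
  rw [e, Affine.Point.some.injEq] at hval
  refine ⟨x', y', h, rfl, ?_, ?_⟩
  · rwa [hval.1, ofReal_re] at hux
  · rwa [show (L.derivWeierstrassP u).re / 2 = y' by
      rw [← Complex.div_ofNat_re, hval.2, ofReal_re]] at huy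

end FA.RationalClosure
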